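import Fermat.Agent.EC.Frob.Frobenius

/-!
# `φ² - a φ + q = 0` over a finite field
-/

open Polynomial WeierstrassCurve WithZero
open scoped Polynomial.Bivariate WeierstrassCurve.Affine

namespace FermatLib.EC.Weil

variable {k : Type*} [Field k] [Fintype k] {L : Type*} [Field L] [Algebra k L] {W : Affine k}
  [(W⁄L).IsElliptic] [DecidableEq L] [IsAlgClosed L] {j : ℕ}

local notation "q" => (Fintype.card k)

/-- The pole degree of `φ^j - 1` is twice the number of its zeros. -/
theorem poleDeg_Phi_sub (hj : j ≠ 0) :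
    poleDeg (Phi W L j (genPt W L) - genPt W L) = 2 * Nat.card (phiFix W L j) ∧
      poleDeg (Phi W L j (genPt W L) + genPt W L) = 2 * Nat.card (phiAnti W L j) := by
  obtain ⟨h1, h2⟩ := Phi_genPt_ne (W := W) (L := L) hj
  have m1 : Phi W L j (genPt W L) - genPt W L ∈ infE1 W L :=
    sub_mem Phi_genPt_mem_infE1 genPt_mem_infE1
  have m2 : Phi W L j (genPt W L) + genPt W L ∈ infE1 W L :=
    add_mem Phi_genPt_mem_infE1 genPt_mem_infE1
  have g1 := poleDeg_of_translate (g := phi W L j - AddMonoidHom.id _) m1 h1 fun S => by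
    rw [map_sub, map_tau_Phi_genPt, map_tau_gen, AddMonoidHom.sub_apply, AddMonoidHom.id_apply,
      map_sub]
    abel
  have g2 := poleDeg_of_translate (g := phi W L j + AddMonoidHom.id _) m2 h2 fun S => by
    rw [map_add, map_tau_Phi_genPt, map_tau_gen, AddMonoidHom.add_apply, AddMonoidHom.id_apply,
      map_add]
    abel
  have e1 := two_le_poleAt_zero m1 h1
  have e2 := two_le_poleAt_zero m2 h2
  have hpar := poleDeg_parallelogram (Phi W L j (genPt W L)) (genPt W L)
  rw [poleDeg_Phi, poleDeg_genPt] at hpar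
  have hcount := card_phiFix_add_card_phiAnti (W := W) (L := L) hj
  change poleDeg _ = _ * ((Nat.card (phiFix W L j) : ℕ) : ℤ) at g1
  change poleDeg _ = _ * ((Nat.card (phiAnti W L j) : ℕ) : ℤ) at g2
  have hc : (Nat.card (phiFix W L j) : ℤ) + Nat.card (phiAnti W L j) = 2 * (q ^ j : ℕ) + 2 := by
    exact_mod_cast hcount
  rw [g1, g2] at hpar
  have p1 := mul_le_mul_of_nonneg_right e1 (Nat.cast_nonneg (α := ℤ) (Nat.card (phiFix W L j)))
  have p2 := mul_le_mul_of_nonneg_right e2 (Nat.cast_nonneg (α := ℤ) (Nat.card (phiAnti W L j)))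
  constructor <;> (first | rw [g1] | rw [g2]) <;> linarith

/-- `φ^j - 1` is surjective on `E(L)`. -/
theorem exists_phi_sub_eq (hj : j ≠ 0) (S : (W⁄L).Point) :
    ∃ P : (W⁄L).Point, phi W L j P - P = S := by
  obtain ⟨h1, -⟩ := Phi_genPt_ne (W := W) (L := L) hj
  have m1 : Phi W L j (genPt W L) - genPt W L ∈ infE1 W L :=
    sub_mem Phi_genPt_mem_infE1 genPt_mem_infE1
  obtain ⟨T, hT⟩ := exists_map_tau_mem_infE1
    (Q := Phi W L j (genPt W L) - genPt W L - cst S) fun P hP => h1 <| by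
      have e : Phi W L j (genPt W L) - genPt W L = cst (P + S) := by
        rw [map_add, hP]; abel
      rw [e] at m1 ⊢
      rw [cst_mem_infE1 m1, map_zero]
  refine ⟨T, sub_eq_zero.mp (cst_mem_infE1 ?_)⟩
  rw [map_sub, map_sub, map_tau_Phi_genPt, map_tau_gen, map_tau_cst] at hT
  rw [map_sub, map_sub]
  refine ((infE1 W L).add_mem_cancel_left m1).mp ?_
  convert hT using 1
  abel

/-- `#E(𝔽_{q²}) = #E(𝔽_q) #{φ = -1}`. -/
theorem card_phiFix_two :
    Nat.card (phiFix W L 2) = Nat.card (phiFix W L 1) * Nat.card (phiAnti W L 1) := by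
  have h2 : ∀ P : (W⁄L).Point, phi W L 2 P = phi W L 1 (phi W L 1 P) := fun P => phi_succ 1 P
  set g : (W⁄L).Point →+ (W⁄L).Point := phi W L 1 - AddMonoidHom.id _ with hg
  let ψ : phiFix W L 2 →+ (W⁄L).Point := g.comp (phiFix W L 2).subtype
  have hker : Nat.card ψ.ker = Nat.card (phiFix W L 1) := by
    refine Nat.card_congr ⟨fun P => ⟨P.1.1, P.2⟩, fun P => ⟨⟨P.1, ?_⟩, P.2⟩, fun _ => rfl, fun _ => rfl⟩
    rw [mem_phiFix, h2, mem_phiFix.mp P.2, mem_phiFix.mp P.2]
  have hran : ψ.range = phiAnti W L 1 := by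
    ext S
    simp only [AddMonoidHom.mem_range, ψ, hg, AddMonoidHom.comp_apply, AddSubgroup.coe_subtype,
      AddMonoidHom.sub_apply, AddMonoidHom.id_apply, mem_phiAnti]
    constructor
    · rintro ⟨⟨P, hP⟩, rfl⟩
      rw [mem_phiFix, h2] at hP
      rw [map_sub, hP, neg_sub]
    · intro hS
      obtain ⟨P, hP⟩ := exists_phi_sub_eq (W := W) one_ne_zero S
      refine ⟨⟨P, ?_⟩, hP⟩
      rw [mem_phiFix, h2]
      have e1 : phi W L 1 P = S + P := by rw [← hP]; abel
      rw [e1, map_add, hS, e1]; abel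
  rw [AddSubgroup.card_eq_card_quotient_mul_card_addSubgroup ψ.ker,
    Nat.card_congr (QuotientAddGroup.quotientKerEquivRange ψ).toEquiv, hker, hran, mul_comm]

/-- The trace `q + 1 - #E(𝔽_q)`. -/
noncomputable def phiTrace (W : Affine k) (L : Type*) [Field L] [Algebra k L] [DecidableEq L] : ℤ :=
  (q : ℤ) + 1 - Nat.card (phiFix W L 1)

lemma poleForm_Phi_one_gen :
    poleForm (Phi W L 1 (genPt W L)) (genPt W L) = 2 * phiTrace W L := by
  have h := (poleDeg_Phi_sub (W := W) (L := L) (j := 1) one_ne_zero).2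
  have hcount := card_phiFix_add_card_phiAnti (W := W) (L := L) (j := 1) one_ne_zero
  rw [poleForm, h, poleDeg_Phi, poleDeg_genPt, phiTrace, pow_one]
  rw [pow_one] at hcount
  have : (Nat.card (phiFix W L 1) : ℤ) + Nat.card (phiAnti W L 1) = 2 * (q : ℤ) + 2 := by
    exact_mod_cast hcount
  linarith

lemma poleForm_Phi_two_gen :
    poleForm (Phi W L 2 (genPt W L)) (genPt W L) = 2 * (phiTrace W L ^ 2 - 2 * q) := by
  have h := (poleDeg_Phi_sub (W := W) (L := L) (j := 2) two_ne_zero).2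
  have hcount := card_phiFix_add_card_phiAnti (W := W) (L := L) (j := 2) two_ne_zero
  have h1 := card_phiFix_add_card_phiAnti (W := W) (L := L) (j := 1) one_ne_zero
  rw [card_phiFix_two] at hcount
  rw [poleForm, h, poleDeg_Phi, poleDeg_genPt, phiTrace]
  rw [pow_one] at h1
  zify at hcount h1
  push_cast
  linear_combination 2 * hcount - 2 * (Nat.card (phiFix W L 1) : ℤ) * h1

lemma poleDeg_combination (A B C : (W⁄(FF W L)).Point) (m n r : ℤ) :
    poleDeg (m • A + n • B + r • C) = m ^ 2 * poleDeg A + n ^ 2 * poleDeg B + r ^ 2 * poleDeg C +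
      m * n * poleForm A B + m * r * poleForm A C + n * r * poleForm B C := by
  have h := poleForm_self (m • A + n • B + r • C)
  simp only [poleForm_add_left, poleForm_add_right, poleForm_zsmul_left, poleForm_zsmul_right]
    at h
  rw [poleForm_self A, poleForm_self B, poleForm_self C] at h
  rw [poleForm_comm B A, poleForm_comm C A, poleForm_comm C B] at h
  linarith

/-- Frobenius is killed by `X² - aX + q` at the generic point. -/
theorem Phi_relation_genPt :
    Phi W L 2 (genPt W L) - phiTrace W L • Phi W L 1 (genPt W L) + (q : ℤ) • genPt W L = 0 := by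
  have hmem : Phi W L 2 (genPt W L) - phiTrace W L • Phi W L 1 (genPt W L) + (q : ℤ) • genPt W L ∈
      infE1 W L :=
    add_mem (sub_mem Phi_genPt_mem_infE1 (AddSubgroup.zsmul_mem _ Phi_genPt_mem_infE1 _))
      (AddSubgroup.zsmul_mem _ genPt_mem_infE1 _)
  refine eq_zero_of_poleDeg_eq_zero hmem ?_
  have hs : ∀ A B C : (W⁄(FF W L)).Point, A - phiTrace W L • B + (q : ℤ) • C =
      (1 : ℤ) • A + (-phiTrace W L) • B + (q : ℤ) • C := fun A B C => by
    rw [one_zsmul, neg_zsmul, sub_eq_add_neg]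
  have h21 : poleForm (Phi W L 2 (genPt W L)) (Phi W L 1 (genPt W L)) =
      (q : ℤ) * poleForm (Phi W L 1 (genPt W L)) (genPt W L) := by
    rw [poleForm, poleForm, Phi_succ 1, ← map_add, poleDeg_Phi, poleDeg_Phi, poleDeg_Phi]
    push_cast; ring
  rw [hs, poleDeg_combination, h21, poleForm_Phi_one_gen, poleForm_Phi_two_gen, poleDeg_Phi,
    poleDeg_Phi, poleDeg_genPt]
  push_cast; ring

/-- `φ² - aφ + q = 0` on `E(L)`. -/
theorem phi_relation (P : (W⁄L).Point) :
    phi W L 1 (phi W L 1 P) - phiTrace W L • phi W L 1 P + (q : ℤ) • P = 0 := by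
  have h := congrArg (Affine.Point.map (tau P)) (Phi_relation_genPt (W := W) (L := L))
  rw [map_zero, map_add, map_sub, map_zsmul, map_zsmul, map_tau_Phi_genPt, map_tau_Phi_genPt,
    map_tau_gen] at h
  rw [← phi_succ 1]
  refine cst_mem_infE1 (?_ : cst _ ∈ infE1 W L)
  rw [show cst (phi W L 2 P - phiTrace W L • phi W L 1 P + (q : ℤ) • P) = 0 from ?_]
  · exact zero_mem _
  rw [map_add, map_sub, map_zsmul, map_zsmul, ← h]
  conv_lhs => rw [← zero_add (cst (phi W L 2 P) - _ + _),
    ← Phi_relation_genPt (W := W) (L := L)]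
  simp only [zsmul_add]
  abel

/-- The Hasse bound. -/
theorem sq_phiTrace_le (W : Affine k) (L : Type*) [Field L] [Algebra k L] [(W⁄L).IsElliptic]
    [DecidableEq L] [IsAlgClosed L] : phiTrace W L ^ 2 ≤ 4 * (q : ℤ) := by
  have h := poleDeg_nonneg
    ((0 : ℤ) • genPt W L + (-2 : ℤ) • Phi W L 1 (genPt W L) + phiTrace W L • genPt W L)
  rw [poleDeg_combination, poleForm_Phi_one_gen, poleDeg_Phi, poleDeg_genPt] at h
  push_cast at h
  linarith

end FermatLib.EC.Weil
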