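import Fermat.Agent.EC.Frob.Infinity
import Mathlib.FieldTheory.Finite.Basic
import Mathlib.FieldTheory.Separable

/-!
# Frobenius over a finite field and the kernels of `φ ± 1`
-/

open Polynomial WeierstrassCurve WithZero
open scoped Polynomial.Bivariate WeierstrassCurve.Affine

namespace FermatLib.EC.Weil

variable (k : Type*) [Field k] [Fintype k]

/-- The `j`-th iterate of the Frobenius of a `k`-algebra. -/
noncomputable def frobJ (K : Type*) [CommRing K] [Algebra k K] : ℕ → (K →ₐ[k] K)
  | 0 => AlgHom.id k K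
  | j + 1 => (FiniteField.frobeniusAlgHom k K).comp (frobJ K j)

lemma frobJ_apply (K : Type*) [CommRing K] [Algebra k K] (j : ℕ) (f : K) :
    frobJ k K j f = f ^ (Fintype.card k ^ j) := by
  induction j with
  | zero => simp [frobJ]
  | succ j ih =>
    rw [frobJ, AlgHom.comp_apply, ih, FiniteField.coe_frobeniusAlgHom, pow_succ, pow_mul]

lemma frobJ_comm {K : Type*} [CommRing K] [Algebra k K] (φ : K →ₐ[k] K) (j : ℕ) :
    φ.comp (frobJ k K j) = (frobJ k K j).comp φ :=
  AlgHom.ext fun f => by simp [frobJ_apply, map_pow]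

variable {k} {L : Type*} [Field L] [Algebra k L] {W : Affine k} [(W⁄L).IsElliptic] [DecidableEq L]
  [IsAlgClosed L] {j : ℕ}

/-- `φ^j` on the points over `L`. -/
noncomputable def phi (W : Affine k) (L : Type*) [Field L] [Algebra k L] [DecidableEq L] (j : ℕ) :
    (W⁄L).Point →+ (W⁄L).Point :=
  Affine.Point.map (frobJ k L j)

/-- `φ^j` on the points over `L(W)`. -/
noncomputable def Phi (W : Affine k) (L : Type*) [Field L] [Algebra k L] (j : ℕ) :
    (W⁄(FF W L)).Point →+ (W⁄(FF W L)).Point :=
  Affine.Point.map (frobJ k (FF W L) j)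

omit [(W⁄L).IsElliptic] [DecidableEq L] [IsAlgClosed L] in
lemma Phi_succ (j : ℕ) (Q : (W⁄(FF W L)).Point) : Phi W L (j + 1) Q = Phi W L 1 (Phi W L j Q) := by
  rw [Phi, Phi, Phi, Affine.Point.map_map]
  rfl

omit [(W⁄L).IsElliptic] [IsAlgClosed L] in
lemma phi_succ (j : ℕ) (P : (W⁄L).Point) : phi W L (j + 1) P = phi W L 1 (phi W L j P) := by
  rw [phi, phi, phi, Affine.Point.map_map]
  rfl

omit [(W⁄L).IsElliptic] [IsAlgClosed L] in
lemma Phi_cst (P : (W⁄L).Point) : Phi W L j (cst P) = cst (phi W L j P) :=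
  map_cst (σ := frobJ k L j) (fun c => by rw [frobJ_apply, frobJ_apply, map_pow]) P

lemma map_tau_Phi (S : (W⁄L).Point) (Q : (W⁄(FF W L)).Point) :
    Affine.Point.map (tau S) (Phi W L j Q) = Phi W L j (Affine.Point.map (tau S) Q) := by
  rw [Phi, Affine.Point.map_map, Affine.Point.map_map, frobJ_comm]

lemma map_tau_Phi_genPt (S : (W⁄L).Point) :
    Affine.Point.map (tau S) (Phi W L j (genPt W L)) = Phi W L j (genPt W L) + cst (phi W L j S) := by
  rw [map_tau_Phi, map_tau_gen, map_add, Phi_cst]

lemma poleAt_Phi (P : (W⁄L).Point) (Q : (W⁄(FF W L)).Point) :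
    poleAt P (Phi W L j Q) = (Fintype.card k ^ j : ℕ) * poleAt P Q := by
  rcases Q with _ | ⟨x, y, h⟩
  · simp [← Affine.Point.zero_def]
  rw [Phi, Affine.Point.map_some, poleAt_some, poleAt_some, frobJ_apply, map_pow,
    ← nsmul_eq_mul, ← log_pow]
  congr 1
  rcases le_total (ptVal P x) 1 with h1 | h1
  · rw [max_eq_right h1, max_eq_right (pow_le_one' h1 _), one_pow]
  · rw [max_eq_left h1, max_eq_left (one_le_pow₀ h1)]

lemma poleDeg_Phi (Q : (W⁄(FF W L)).Point) :
    poleDeg (Phi W L j Q) = (Fintype.card k ^ j : ℕ) * poleDeg Q := by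
  rw [poleDeg, poleDeg, show poleDiv (Phi W L j Q) = (Fintype.card k ^ j : ℕ) • poleDiv Q from
    Finsupp.ext fun P => by simp [poleAt_Phi], map_nsmul, nsmul_eq_mul]

lemma Phi_genPt_mem_infE1 : Phi W L j (genPt W L) ∈ infE1 W L := by
  refine mem_infE1_iff.mpr (Or.inr ?_)
  rw [poleAt_Phi, poleAt_zero_genPt]
  have : 0 < Fintype.card k ^ j := pow_pos Fintype.card_pos j
  positivity

lemma one_lt_card_pow (hj : j ≠ 0) : 1 < Fintype.card k ^ j :=
  Nat.one_lt_pow hj Fintype.one_lt_card

lemma Phi_genPt_ne (hj : j ≠ 0) :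
    Phi W L j (genPt W L) - genPt W L ≠ 0 ∧ Phi W L j (genPt W L) + genPt W L ≠ 0 := by
  have hne : ∀ Q : (W⁄(FF W L)).Point, poleDeg Q = 2 → Phi W L j (genPt W L) ≠ Q := fun Q hQ h => by
    have := congrArg poleDeg h
    rw [poleDeg_Phi, poleDeg_genPt, hQ] at this
    have h1 := one_lt_card_pow (k := k) hj
    have : ((Fintype.card k ^ j : ℕ) : ℤ) * 2 = 1 * 2 := by rw [this]; rfl
    omega
  exact ⟨sub_ne_zero.mpr (hne _ poleDeg_genPt),
    fun h => hne _ ((poleDeg_neg _).trans poleDeg_genPt) (eq_neg_of_add_eq_zero_left h)⟩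

/-- The points fixed by `φ^j`. -/
noncomputable def phiFix (W : Affine k) (L : Type*) [Field L] [Algebra k L] [DecidableEq L] (j : ℕ) :
    AddSubgroup (W⁄L).Point :=
  (phi W L j - AddMonoidHom.id _).ker

/-- The points negated by `φ^j`. -/
noncomputable def phiAnti (W : Affine k) (L : Type*) [Field L] [Algebra k L] [DecidableEq L] (j : ℕ) :
    AddSubgroup (W⁄L).Point :=
  (phi W L j + AddMonoidHom.id _).ker

omit [(W⁄L).IsElliptic] [IsAlgClosed L] in
lemma mem_phiFix {P : (W⁄L).Point} : P ∈ phiFix W L j ↔ phi W L j P = P := by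
  simp [phiFix, AddMonoidHom.mem_ker, sub_eq_zero]

omit [(W⁄L).IsElliptic] [IsAlgClosed L] in
lemma mem_phiAnti {P : (W⁄L).Point} : P ∈ phiAnti W L j ↔ phi W L j P = -P := by
  simp [phiAnti, AddMonoidHom.mem_ker, add_eq_zero_iff_eq_neg]

omit [DecidableEq L] in
lemma card_fixed_elements (hj : j ≠ 0) [DecidableEq L] :
    (X ^ (Fintype.card k ^ j) - X : L[X]).roots.toFinset.card = Fintype.card k ^ j := by
  have hQ := one_lt_card_pow (k := k) hj
  set q := Fintype.card k ^ j with hqdef
  obtain ⟨p, _⟩ := CharP.exists L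
  have hq0 : ((q : ℕ) : L) = 0 := by
    have : (Fintype.card k : k) = 0 := FiniteField.cast_card_eq_zero k
    rw [hqdef, Nat.cast_pow, ← map_natCast (algebraMap k L), this, map_zero, zero_pow hj]
  have hsep : (X ^ q - X : L[X]).Separable := by
    rw [Polynomial.separable_def]
    refine ⟨0, -1, ?_⟩
    rw [derivative_sub, derivative_X_pow, derivative_X, hq0]
    simp
  rw [Multiset.toFinset_card_of_nodup (nodup_roots hsep),
    IsAlgClosed.card_roots_eq_natDegree, natDegree_sub_eq_left_of_natDegree_lt (by simpa using hQ),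
    natDegree_X_pow]

lemma card_phiFix_add_card_phiAnti (hj : j ≠ 0) :
    Nat.card (phiFix W L j) + Nat.card (phiAnti W L j) = 2 * Fintype.card k ^ j + 2 := by
  classical
  have hQ := one_lt_card_pow (k := k) hj
  set s : Finset L := (X ^ (Fintype.card k ^ j) - X : L[X]).roots.toFinset with hs
  have hs_card : s.card = Fintype.card k ^ j := card_fixed_elements hj
  have hmem : ∀ a : L, a ^ (Fintype.card k ^ j) = a → a ∈ s := fun a ha => by
    rw [hs, Multiset.mem_toFinset, mem_roots', IsRoot.def, eval_sub, eval_pow, eval_X, ha, sub_self]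
    refine ⟨fun h0 => ?_, rfl⟩
    have h1 := congrArg (fun p : L[X] => p.natDegree) h0
    simp [natDegree_sub_eq_left_of_natDegree_lt (show (X : L[X]).natDegree <
      (X ^ (Fintype.card k ^ j) : L[X]).natDegree by simpa using hQ)] at h1
  have hback : ∀ a ∈ s, a ^ (Fintype.card k ^ j) = a := fun a ha => by
    rw [hs, Multiset.mem_toFinset, mem_roots', IsRoot.def, eval_sub, eval_pow, eval_X, sub_eq_zero] at ha
    exact ha.2
  -- the points with fixed `X`
  have hfin := finite_x_mem (W := W) s
  set T : Finset (W⁄L).Point := hfin.toFinset with hT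
  have hxT : ∀ P : (W⁄L).Point, phi W L j P = P ∨ phi W L j P = -P → P ∈ T := fun P hP => by
    rw [hT, Set.Finite.mem_toFinset]
    rintro a b h rfl
    apply hmem
    have hx : frobJ k L j a = a := by
      rcases hP with hP | hP
      · rw [phi, Affine.Point.map_some, Affine.Point.some.injEq] at hP; exact hP.1
      · rw [phi, Affine.Point.map_some, Affine.Point.neg_some, Affine.Point.some.injEq] at hP
        exact hP.1
    rwa [frobJ_apply] at hx
  have e1 : Nat.card (phiFix W L j) = (T.filter fun P => phi W L j P = P).card := by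
    rw [← Nat.card_eq_finsetCard]
    exact Nat.card_congr (Equiv.subtypeEquivRight fun P => by
      rw [mem_phiFix, Finset.mem_filter]; exact ⟨fun h => ⟨hxT P (Or.inl h), h⟩, And.right⟩)
  have e2 : Nat.card (phiAnti W L j) = (T.filter fun P => phi W L j P = -P).card := by
    rw [← Nat.card_eq_finsetCard]
    exact Nat.card_congr (Equiv.subtypeEquivRight fun P => by
      rw [mem_phiAnti, Finset.mem_filter]; exact ⟨fun h => ⟨hxT P (Or.inr h), h⟩, And.right⟩)
  -- sum the indicator functions
  rw [e1, e2, Finset.card_filter, Finset.card_filter, ← Finset.sum_add_distrib]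
  let xo : (W⁄L).Point → Option L := fun P => match P with
    | .zero => none
    | .some a _ _ => some a
  have hmaps : ∀ P ∈ T, xo P ∈ Finset.insertNone s := fun P hP => by
    rw [hT, Set.Finite.mem_toFinset] at hP
    rcases P with _ | ⟨a, b, h⟩
    · simp [xo]
    · simpa [xo] using hP a b h rfl
  have htot : (2 * Fintype.card k ^ j + 2 : ℕ) = ∑ _o ∈ Finset.insertNone s, 2 := by
    rw [Finset.sum_const, Finset.card_insertNone, hs_card, smul_eq_mul]; ring
  rw [← Finset.sum_fiberwise_of_maps_to hmaps, htot]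
  refine Finset.sum_congr rfl fun o ho => ?_
  rcases o with _ | a
  · have : T.filter (fun P => xo P = none) = {0} := Finset.ext fun P => by
      rw [Finset.mem_filter, Finset.mem_singleton]
      rcases P with _ | ⟨a, b, h⟩
      · simp only [← Affine.Point.zero_def, iff_true]
        exact ⟨hxT 0 (Or.inl (map_zero _)), rfl⟩
      · simp [xo]
    rw [this, Finset.sum_singleton]
    simp
  · rw [Finset.mem_insertNone] at ho
    have ha : a ∈ s := ho a rfl
    obtain ⟨b, hab, huniq⟩ := exists_point_x (W := W) a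
    set P₀ : (W⁄L).Point := .some a b hab with hP₀
    have hin : ∀ (b' : L) (h' : (W⁄L).Nonsingular a b'),
        (Affine.Point.some a b' h' : (W⁄L).Point) ∈ T := fun b' h' => by
      rw [hT, Set.Finite.mem_toFinset]
      intro a' b'' h'' e
      rw [Affine.Point.some.injEq] at e
      rw [← e.1]; exact ha
    have hfib : T.filter (fun P => xo P = some a) = {P₀, -P₀} := Finset.ext fun P => by
      rw [Finset.mem_filter, Finset.mem_insert, Finset.mem_singleton]
      constructor
      · rintro ⟨-, hx⟩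
        rcases P with _ | ⟨a', b', h'⟩
        · simp [xo] at hx
        · simp only [xo, Option.some.injEq] at hx
          subst hx
          exact huniq b' h'
      · rintro (rfl | rfl)
        · exact ⟨hin b hab, rfl⟩
        · rw [hP₀, Affine.Point.neg_some]
          exact ⟨hin _ _, rfl⟩
    have hφ : phi W L j P₀ = P₀ ∨ phi W L j P₀ = -P₀ := by
      rw [hP₀, phi, Affine.Point.map_some]
      have hx : frobJ k L j a = a := by rw [frobJ_apply]; exact hback a ha
      exact Affine.Point.X_eq_iff.mp hx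
    rw [hfib]
    by_cases h2 : P₀ = -P₀
    · rw [← h2, Finset.pair_eq_singleton, Finset.sum_singleton]
      have h1 : phi W L j P₀ = P₀ := hφ.elim id fun h => h.trans h2.symm
      simp [h1, ← h2]
    · rw [Finset.sum_pair h2, map_neg, neg_neg]
      rcases hφ with h | h <;> simp [h, h2, Ne.symm h2]

end FermatLib.EC.Weil
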