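import Fermat.Agent.EC.Frob.PoleDegree
import Fermat.Agent.EC.RedAdd

/-!
# Points over the function field reducing to `0` at infinity

The poles of `X(Q)` are the `P` at which the translate of `Q` reduces to `0` at infinity.
-/

open Polynomial WeierstrassCurve WithZero
open scoped Polynomial.Bivariate WeierstrassCurve.Affine

namespace FermatLib.EC.Weil

variable {R L : Type*} [CommRing R] [Field L] [Algebra R L] {W : Affine R}

omit [CommRing R] in
/-- The place at infinity as a valuation subring. -/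
noncomputable def infPlace {F : Type*} [Field F] (V : Affine F) : ValuationSubring V.FunctionField :=
  (vInf V).valuationSubring

lemma mem_infPlace {f : FF W L} : f ∈ infPlace (W⁄L) ↔ vInf (W⁄L) f ≤ 1 := Iff.rfl

lemma integralAt_infPlace : FermatLib.EC.IntegralAt (infPlace (W⁄L)) (W⁄(FF W L)) := by
  constructor <;> rw [← map_const_curve] <;> exact mem_infPlace.mpr (vInf_const_le _)

variable [(W⁄L).IsElliptic] [DecidableEq L]

/-- The points reducing to `0` at infinity. -/
noncomputable def infE1 (W : Affine R) (L : Type*) [Field L] [Algebra R L] :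
    AddSubgroup (W⁄(FF W L)).Point :=
  FermatLib.EC.E1 (integralAt_infPlace (W := W) (L := L))

variable [IsAlgClosed L]

lemma some_mem_infE1 {x y : FF W L} {h : (W⁄(FF W L)).Nonsingular x y} :
    (Affine.Point.some x y h : (W⁄(FF W L)).Point) ∈ infE1 W L ↔ 1 < vInf (W⁄L) x :=
  mem_infPlace.not.trans not_le

lemma mem_infE1_iff {Q : (W⁄(FF W L)).Point} :
    Q ∈ infE1 W L ↔ Q = 0 ∨ 0 < poleAt (0 : (W⁄L).Point) Q := by
  rcases Q with _ | ⟨x, y, h⟩
  · simp [← Affine.Point.zero_def, zero_mem]
  rw [some_mem_infE1, poleAt_some, ptVal_zero_apply, or_iff_right (Affine.Point.some_ne_zero h)]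
  constructor
  · intro h1
    rw [max_eq_left h1.le, ← log_one (M := ℤ)]
    exact (log_lt_log one_ne_zero h1.ne_bot).mpr h1
  · intro h1
    by_contra h2
    rw [max_eq_right (not_lt.mp h2), log_one] at h1
    exact lt_irrefl _ h1

/-- A nonzero point reducing to `0` at infinity has `X` with a pole of order at least `2`. -/
lemma two_le_poleAt_zero {Q : (W⁄(FF W L)).Point} (hQ : Q ∈ infE1 W L) (h0 : Q ≠ 0) :
    2 ≤ poleAt (0 : (W⁄L).Point) Q := by
  rcases Q with _ | ⟨x, y, h⟩
  · exact absurd rfl h0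
  have hv := some_mem_infE1.mp hQ
  have hp : 0 < poleAt (0 : (W⁄L).Point) (Affine.Point.some x y h) :=
    (mem_infE1_iff.mp hQ).resolve_left h0
  rw [poleAt_some, ptVal_zero_apply, max_eq_left hv.le] at hp ⊢
  by_contra hlt
  have h1 : log (vInf (W⁄L) x) = 1 := by omega
  have hx : x ∉ infPlace (W⁄L) := fun hh => absurd (mem_infPlace.mp hh) (not_le.mpr hv)
  obtain ⟨-, -, hν, hν1⟩ := (integralAt_infPlace (W := W) (L := L)).inE1_aux h.1 hx
  have hx0 : vInf (W⁄L) x ≠ 0 := ne_of_gt (lt_trans zero_lt_one hv)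
  have hu : vInf (W⁄L) (y ^ 2 * x⁻¹ ^ 3) = 1 := by
    refine le_antisymm (mem_infPlace.mp hν) (not_lt.mp fun hlt' => ?_)
    rw [FermatLib.EC.res_of_mem hν] at hν1
    have : IsUnit (⟨_, hν⟩ : infPlace (W⁄L)) :=
      (IsLocalRing.residue_ne_zero_iff_isUnit _).mp (hν1 ▸ one_ne_zero)
    obtain ⟨z, hz⟩ := this.exists_right_inv
    have e := congrArg (fun t : infPlace (W⁄L) => vInf (W⁄L) (t : FF W L)) hz
    simp only [MulMemClass.coe_mul, map_mul, OneMemClass.coe_one, map_one] at e
    have := mul_lt_one_of_lt_of_le hlt' (mem_infPlace.mp z.2)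
    rw [map_mul] at this
    exact this.ne e
  rw [map_mul, map_pow, map_pow, map_inv₀] at hu
  have hy0 : vInf (W⁄L) y ≠ 0 := fun hy => by simp [hy] at hu
  have h2 := congrArg log hu
  rw [log_mul (pow_ne_zero _ hy0) (pow_ne_zero _ (inv_ne_zero hx0)), log_pow, log_pow, log_inv, h1,
    log_one] at h2
  simp only [nsmul_eq_mul] at h2
  push_cast at h2
  omega

lemma cst_mem_infE1 {P : (W⁄L).Point} (h : cst P ∈ infE1 W L) : P = 0 := by
  rcases P with _ | ⟨a, b, hab⟩
  · rfl
  simp only [cst, Affine.Point.baseChange, Affine.Point.map_some] at h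
  exact absurd (vInf_const_le (W := W) a) (not_le.mpr (some_mem_infE1.mp h))

lemma ne_zero_of_forall_cst_ne {Q : (W⁄(FF W L)).Point} (h : ∀ P, cst P ≠ Q) : Q ≠ 0 :=
  fun h0 => h 0 (by rw [map_zero, h0])

lemma genPt_mem_infE1 : genPt W L ∈ infE1 W L := by
  rw [genPt, some_mem_infE1, vInf_xGen, ← exp_zero, exp_lt_exp]; norm_num

lemma poleAt_zero_genPt : poleAt (0 : (W⁄L).Point) (genPt W L) = 2 := by
  rw [genPt, poleAt_some, ptVal_zero_apply, vInf_xGen, max_eq_left, log_exp]
  rw [← exp_zero, exp_le_exp]; norm_num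

/-- Poles are computed after translating to infinity. -/
lemma poleAt_eq_poleAt_zero (P : (W⁄L).Point) (Q : (W⁄(FF W L)).Point) :
    poleAt P Q = poleAt (0 : (W⁄L).Point) (Affine.Point.map (tau P) Q) := by
  rcases Q with _ | ⟨x, y, h⟩
  · simp [← Affine.Point.zero_def]
  · rw [Affine.Point.map_some, poleAt_some, poleAt_some, ptVal_zero_apply]; rfl

/-- Some translate of a nonconstant point reduces to `0` at infinity. -/
lemma exists_map_tau_mem_infE1 {Q : (W⁄(FF W L)).Point} (hQ : ∀ P, cst P ≠ Q) :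
    ∃ T : (W⁄L).Point, Affine.Point.map (tau T) Q ∈ infE1 W L := by
  rcases Q with _ | ⟨x, y, h⟩
  · exact ⟨0, by simp [← Affine.Point.zero_def, zero_mem]⟩
  by_contra hcon
  simp only [not_exists, Affine.Point.map_some, some_mem_infE1, not_lt] at hcon
  obtain ⟨c, hc⟩ := exists_eq_const_of_ord_nonneg (f := x) fun T => by
    rcases eq_or_ne x 0 with rfl | hx
    · simp
    · exact (ordAt_nonneg_iff T hx).mpr (hcon T)
  exact x_ne_const hQ c hc

section Translate

variable {Q : (W⁄(FF W L)).Point} {g : (W⁄L).Point →+ (W⁄L).Point}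

lemma poleAt_of_translate (hQ : Q ∈ infE1 W L) (h0 : Q ≠ 0)
    (hg : ∀ S, Affine.Point.map (tau S) Q = Q + cst (g S)) (S : (W⁄L).Point) [Decidable (g S = 0)] :
    poleAt S Q = if g S = 0 then poleAt (0 : (W⁄L).Point) Q else 0 := by
  rw [poleAt_eq_poleAt_zero, hg]
  split_ifs with hS
  · rw [hS, map_zero, add_zero]
  · refine le_antisymm (not_lt.mp fun hpos => hS (cst_mem_infE1 ?_)) (poleAt_nonneg _ _)
    exact ((infE1 W L).add_mem_cancel_left hQ).mp (mem_infE1_iff.mpr (Or.inr hpos))

lemma finite_ker_of_translate (hQ : Q ∈ infE1 W L) (h0 : Q ≠ 0)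
    (hg : ∀ S, Affine.Point.map (tau S) Q = Q + cst (g S)) :
    {S : (W⁄L).Point | g S = 0}.Finite :=
  (finite_poleAt_ne_zero Q).subset fun S hS => by
    classical
    simp only [Set.mem_ofPred_eq] at hS ⊢
    rw [poleAt_of_translate hQ h0 hg, if_pos hS]
    exact ne_of_gt (lt_of_lt_of_le two_pos (two_le_poleAt_zero hQ h0))

lemma poleDeg_of_translate (hQ : Q ∈ infE1 W L) (h0 : Q ≠ 0)
    (hg : ∀ S, Affine.Point.map (tau S) Q = Q + cst (g S)) :
    poleDeg Q = poleAt (0 : (W⁄L).Point) Q * Nat.card g.ker := by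
  classical
  have hfin := finite_ker_of_translate hQ h0 hg
  have hpos : poleAt (0 : (W⁄L).Point) Q ≠ 0 :=
    ne_of_gt (lt_of_lt_of_le two_pos (two_le_poleAt_zero hQ h0))
  have hsupp : (poleDiv Q).support = hfin.toFinset := Finset.ext fun S => by
    rw [Finsupp.mem_support_iff, poleDiv_apply, poleAt_of_translate hQ h0 hg, Set.Finite.mem_toFinset]
    by_cases hS : g S = 0 <;> simp [hS, hpos]
  rw [show Nat.card g.ker = hfin.toFinset.card from Nat.card_eq_card_finite_toFinset hfin]
  calc poleDeg Q = ∑ S ∈ hfin.toFinset, poleAt S Q := by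
        rw [← hsupp]; simp [poleDeg, degD, Finsupp.sum]
    _ = ∑ S ∈ hfin.toFinset, poleAt (0 : (W⁄L).Point) Q :=
        Finset.sum_congr rfl fun S hS => by
          rw [poleAt_of_translate hQ h0 hg, if_pos (show g S = 0 from hfin.mem_toFinset.mp hS)]
    _ = _ := by rw [Finset.sum_const, nsmul_eq_mul, mul_comm]

end Translate

lemma poleDeg_genPt : poleDeg (genPt W L) = 2 := by
  have h0 : genPt W L ≠ 0 := ne_zero_of_forall_cst_ne (genPt_ne_cst (W := W) (L := L))
  rw [poleDeg_of_translate (g := AddMonoidHom.id _) genPt_mem_infE1 h0 map_tau_gen,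
    poleAt_zero_genPt, AddMonoidHom.ker_id]
  simp

/-- A point reducing to `0` at infinity with `X` of pole degree `0` is `0`. -/
lemma eq_zero_of_poleDeg_eq_zero {Q : (W⁄(FF W L)).Point} (hQ : Q ∈ infE1 W L)
    (h : poleDeg Q = 0) : Q = 0 := by
  by_contra h0
  have h2 := eq_zero_of_degD_eq_zero (D := poleDiv Q) (fun P => poleAt_nonneg P Q) h
  have h3 := two_le_poleAt_zero hQ h0
  rw [← poleDiv_apply, h2] at h3
  simp at h3

section Quadratic

/-- The biadditive form attached to `poleDeg`. -/
noncomputable def poleForm (S T : (W⁄(FF W L)).Point) : ℤ :=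
  poleDeg (S + T) - poleDeg S - poleDeg T

lemma poleForm_comm (S T : (W⁄(FF W L)).Point) : poleForm S T = poleForm T S := by
  rw [poleForm, poleForm, add_comm]; ring

lemma poleForm_add_left (S T U : (W⁄(FF W L)).Point) :
    poleForm (S + T) U = poleForm S U + poleForm T U := by
  have h1 := poleDeg_parallelogram (S + T) U
  have h2 := poleDeg_parallelogram S (T - U)
  have h3 := poleDeg_parallelogram (S + U) T
  have h4 := poleDeg_parallelogram T U
  rw [show S + (T - U) = S + T - U by abel, show S - (T - U) = S + U - T by abel] at h2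
  rw [show S + U + T = S + T + U by abel] at h3
  simp only [poleForm]
  linarith

/-- `poleForm · T` as a homomorphism. -/
noncomputable def poleFormHom (T : (W⁄(FF W L)).Point) : (W⁄(FF W L)).Point →+ ℤ :=
  AddMonoidHom.mk' (fun S => poleForm S T) fun S U => poleForm_add_left S U T

lemma poleForm_zsmul_left (m : ℤ) (S T : (W⁄(FF W L)).Point) :
    poleForm (m • S) T = m * poleForm S T := by
  simpa [poleFormHom] using map_zsmul (poleFormHom T) m S

lemma poleForm_add_right (S T U : (W⁄(FF W L)).Point) :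
    poleForm S (T + U) = poleForm S T + poleForm S U := by
  rw [poleForm_comm, poleForm_add_left, poleForm_comm T, poleForm_comm U]

lemma poleForm_zsmul_right (m : ℤ) (S T : (W⁄(FF W L)).Point) :
    poleForm S (m • T) = m * poleForm S T := by
  rw [poleForm_comm, poleForm_zsmul_left, poleForm_comm]

lemma poleForm_self (S : (W⁄(FF W L)).Point) : poleForm S S = 2 * poleDeg S := by
  have h := poleDeg_parallelogram S S
  rw [sub_self, poleDeg_zero] at h
  rw [poleForm]; linarith

end Quadratic

end FermatLib.EC.Weil
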