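import Fermat.Agent.EC.Weil.Divisor
import Fermat.Agent.EC.AddSubMapSpec
import Mathlib.RingTheory.Valuation.ValuationSubring

/-!
# The pole degree of the `X`-coordinate of a point over the function field

For a point `R` of `W` over `L(W)`, `poleDeg R` is the number of poles, with multiplicity, of
`X(R)`. It satisfies the parallelogram law exactly.
-/

open Polynomial WeierstrassCurve WithZero
open scoped Polynomial.Bivariate WeierstrassCurve.Affine

namespace FermatLib.EC.Weil

section VMax

variable {K : Type*} [Field K] {Γ₀ : Type*} [LinearOrderedCommGroupWithZero Γ₀] (v : Valuation K Γ₀)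

/-- The largest valuation of a coordinate. -/
noncomputable def vmax {n : ℕ} (u : Fin (n + 1) → K) : Γ₀ :=
  Finset.univ.sup' Finset.univ_nonempty fun i => v (u i)

lemma le_vmax {n : ℕ} (u : Fin (n + 1) → K) (i : Fin (n + 1)) : v (u i) ≤ vmax v u :=
  Finset.le_sup' (fun i => v (u i)) (Finset.mem_univ i)

lemma exists_eq_vmax {n : ℕ} (u : Fin (n + 1) → K) : ∃ i, v (u i) = vmax v u := by
  obtain ⟨i, -, h⟩ := Finset.exists_mem_eq_sup' Finset.univ_nonempty fun i => v (u i)
  exact ⟨i, h.symm⟩

lemma vmax_smul {n : ℕ} (c : K) (u : Fin (n + 1) → K) : vmax v (c • u) = v c * vmax v u := by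
  refine le_antisymm (Finset.sup'_le _ _ fun i _ => ?_) ?_
  · simp only [Pi.smul_apply, smul_eq_mul, map_mul]
    exact mul_le_mul_right (le_vmax v u i) _
  · obtain ⟨i, hi⟩ := exists_eq_vmax v u
    rw [← hi, ← map_mul]
    exact le_vmax v (c • u) i

lemma vmax_ne_zero {n : ℕ} {u : Fin (n + 1) → K} (hu : u ≠ 0) : vmax v u ≠ 0 := by
  obtain ⟨i, hi⟩ := Function.ne_iff.mp hu
  exact ne_of_gt (lt_of_lt_of_le (zero_lt_iff.mpr ((Valuation.ne_zero_iff v).mpr hi)) (le_vmax v u i))

lemma vmax_vec_two (a b : K) : vmax v ![a, b] = max (v a) (v b) := by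
  refine le_antisymm (Finset.sup'_le _ _ fun i _ => ?_) (max_le (le_vmax v ![a, b] 0) (le_vmax v ![a, b] 1))
  fin_cases i <;> simp

/-- Every nonzero vector is a multiple of an integral vector with nonzero reduction. -/
lemma exists_scale {n : ℕ} {u : Fin (n + 1) → K} (hu : u ≠ 0) :
    ∃ (c : K) (w : Fin (n + 1) → v.valuationSubring),
      u = c • (fun i => (w i : K)) ∧ v c = vmax v u ∧
        (fun i => IsLocalRing.residue v.valuationSubring (w i)) ≠ 0 := by
  obtain ⟨i, hi⟩ := exists_eq_vmax v u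
  have h0 : v (u i) ≠ 0 := hi ▸ vmax_ne_zero v hu
  have hu0 : u i ≠ 0 := (Valuation.ne_zero_iff v).mp h0
  have hmem : ∀ j, u j / u i ∈ v.valuationSubring := fun j => by
    rw [Valuation.mem_valuationSubring_iff, map_div₀, div_le_one₀ (zero_lt_iff.mpr h0), hi]
    exact le_vmax v u j
  refine ⟨u i, fun j => ⟨u j / u i, hmem j⟩, funext fun j => ?_, hi, fun h => ?_⟩
  · simp [mul_div_cancel₀ _ hu0]
  · have h1 : (⟨u i / u i, hmem i⟩ : v.valuationSubring) = 1 := Subtype.ext (div_self hu0)
    have h2 := congrFun h i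
    simp only [Pi.zero_apply] at h2
    rw [h1, map_one] at h2
    exact one_ne_zero h2

/-- An integral vector with nonzero reduction has `vmax = 1`. -/
lemma vmax_eq_one {n : ℕ} {w : Fin (n + 1) → v.valuationSubring}
    (h : (fun i => IsLocalRing.residue v.valuationSubring (w i)) ≠ 0) :
    vmax v (fun i => (w i : K)) = 1 := by
  obtain ⟨i, hi⟩ := Function.ne_iff.mp h
  refine le_antisymm (Finset.sup'_le _ _ fun j _ => (w j).2) (le_trans ?_ (le_vmax v _ i))
  have hu : IsUnit (w i) := (IsLocalRing.residue_ne_zero_iff_isUnit _).mp hi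
  obtain ⟨z, hz⟩ := hu.exists_right_inv
  have h1 : v (w i : K) * v (z : K) = 1 := by
    rw [← map_mul, ← MulMemClass.coe_mul, hz, OneMemClass.coe_one, map_one]
  rw [← h1]
  exact mul_le_of_le_one_right' z.2

lemma symVec_ne_zero {k : Type*} [Field k] {a b : Fin 2 → k} (ha : a ≠ 0) (hb : b ≠ 0) :
    symVec a b ≠ 0 := by
  intro h
  have h0 : a 0 * b 0 = 0 := congrFun h 0
  have h1 : a 0 * b 1 + a 1 * b 0 = 0 := congrFun h 1
  have h2 : a 1 * b 1 = 0 := congrFun h 2
  by_cases hb0 : b 0 = 0
  · have hb1 : b 1 ≠ 0 := fun hb1 => hb (by funext i; fin_cases i <;> assumption)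
    refine ha (funext fun i => ?_)
    fin_cases i
    · simpa [hb0, hb1] using h1
    · simpa [hb1] using h2
  · have ha0 := (mul_eq_zero.mp h0).resolve_right hb0
    refine ha (funext fun i => ?_)
    fin_cases i
    · exact ha0
    · simpa [ha0, hb0] using h1

lemma symVec_map {A B : Type*} [CommRing A] [CommRing B] (f : A →+* B) (a b : Fin 2 → A) :
    (fun i => f (symVec a b i)) = symVec (fun i => f (a i)) (fun i => f (b i)) := by
  funext i; fin_cases i <;> simp [symVec]

lemma addSubVec_map {A B : Type*} [CommRing A] [CommRing B] (f : A →+* B) (V : WeierstrassCurve A)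
    (u : Fin 3 → A) :
    (fun i => f (addSubVec V u i)) = addSubVec (V.map f) (fun i => f (u i)) := by
  funext i; fin_cases i <;> simp [addSubVec, map_ofNat]

lemma symVec_smul_smul {A : Type*} [CommRing A] (c d : A) (a b : Fin 2 → A) :
    symVec (c • a) (d • b) = (c * d) • symVec a b := by
  funext i; fin_cases i <;> simp [symVec] <;> ring

/-- Gauss: the symmetric product is multiplicative for `vmax`. -/
lemma vmax_symVec (a b : Fin 2 → K) : vmax v (symVec a b) = vmax v a * vmax v b := by
  have hz : vmax v (0 : Fin 2 → K) = 0 := by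
    obtain ⟨i, hi⟩ := exists_eq_vmax v (0 : Fin 2 → K)
    rw [← hi]; simp
  have hz3 : vmax v (0 : Fin 3 → K) = 0 := by
    obtain ⟨i, hi⟩ := exists_eq_vmax v (0 : Fin 3 → K)
    rw [← hi]; simp
  rcases eq_or_ne a 0 with rfl | ha
  · rw [show symVec (0 : Fin 2 → K) b = 0 by funext i; fin_cases i <;> simp [symVec], hz3, hz,
      zero_mul]
  rcases eq_or_ne b 0 with rfl | hb
  · rw [show symVec a (0 : Fin 2 → K) = 0 by funext i; fin_cases i <;> simp [symVec], hz3, hz,
      mul_zero]
  obtain ⟨c, a', rfl, hc, ha'⟩ := exists_scale v ha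
  obtain ⟨d, b', rfl, hd, hb'⟩ := exists_scale v hb
  rw [symVec_smul_smul, vmax_smul, map_mul,
    show (symVec (fun i => (a' i : K)) fun i => (b' i : K)) = fun i => ((symVec a' b' i : v.valuationSubring) : K) from
      (symVec_map v.valuationSubring.subtype a' b').symm, vmax_eq_one, ← hc, ← hd, mul_one]
  rw [symVec_map (IsLocalRing.residue v.valuationSubring)]
  exact symVec_ne_zero ha' hb'

/-- The addition-and-subtraction map squares `vmax` at a place of good reduction. -/
lemma vmax_addSubVec (V₀ : WeierstrassCurve v.valuationSubring) [V₀.IsElliptic]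
    {V : WeierstrassCurve K} (hV : V₀.map v.valuationSubring.subtype = V) (u : Fin 3 → K) :
    vmax v (addSubVec V u) = vmax v u ^ 2 := by
  subst hV
  rcases eq_or_ne u 0 with rfl | hu
  · have hz : vmax v (0 : Fin 3 → K) = 0 := by
      obtain ⟨i, hi⟩ := exists_eq_vmax v (0 : Fin 3 → K)
      rw [← hi]; simp
    rw [show addSubVec (V₀.map v.valuationSubring.subtype) (0 : Fin 3 → K) = 0 by
      funext i; fin_cases i <;> simp [addSubVec], hz, zero_pow two_ne_zero]
  obtain ⟨c, w, rfl, hc, hw⟩ := exists_scale v hu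
  rw [addSubVec_smul, vmax_smul, map_pow, ← hc,
    show addSubVec (V₀.map v.valuationSubring.subtype) (fun i => (w i : K)) =
      fun i => ((addSubVec V₀ w i : v.valuationSubring) : K) from (addSubVec_map v.valuationSubring.subtype V₀ w).symm,
    vmax_eq_one, mul_one]
  rw [addSubVec_map (IsLocalRing.residue v.valuationSubring)]
  exact addSubVec_ne_zero _ hw

end VMax

variable {R L : Type*} [CommRing R] [Field L] [Algebra R L] {W : Affine R} [(W⁄L).IsElliptic]
  [DecidableEq L] [IsAlgClosed L]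

/-- The pole order of `X(Q)` at `P`. -/
noncomputable def poleAt (P : (W⁄L).Point) (Q : (W⁄(FF W L)).Point) : ℤ :=
  log (vmax (ptVal P) Q.xRep)

lemma poleAt_some (P : (W⁄L).Point) {x y : FF W L} (h : (W⁄(FF W L)).Nonsingular x y) :
    poleAt P (.some x y h) = log (max (ptVal P x) 1) := by
  rw [poleAt, Affine.Point.xRep_some, vmax_vec_two, map_one]

@[simp] lemma poleAt_zero (P : (W⁄L).Point) : poleAt P (0 : (W⁄(FF W L)).Point) = 0 := by
  rw [poleAt, Affine.Point.xRep_zero, vmax_vec_two]; simp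

lemma poleAt_neg (P : (W⁄L).Point) (Q : (W⁄(FF W L)).Point) : poleAt P (-Q) = poleAt P Q := by
  rw [poleAt, Affine.Point.xRep_neg, poleAt]

lemma finite_poleAt_ne_zero (Q : (W⁄(FF W L)).Point) :
    {P : (W⁄L).Point | poleAt P Q ≠ 0}.Finite := by
  rcases Q with _ | ⟨x, y, h⟩
  · simp [← Affine.Point.zero_def]
  refine (finite_ord_ne_zero x).subset fun P hP => ?_
  simp only [Set.mem_ofPred_eq, poleAt_some] at hP ⊢
  intro h0
  apply hP
  rcases eq_or_ne x 0 with rfl | hx
  · simp
  · rw [max_eq_right ((ordAt_nonneg_iff P hx).mp h0.ge), log_one]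

/-- The pole divisor of `X(Q)`. -/
noncomputable def poleDiv (Q : (W⁄(FF W L)).Point) : (W⁄L).Point →₀ ℤ :=
  Finsupp.ofSupportFinite (fun P => poleAt P Q) (finite_poleAt_ne_zero Q)

@[simp] lemma poleDiv_apply (Q : (W⁄(FF W L)).Point) (P : (W⁄L).Point) :
    poleDiv Q P = poleAt P Q := rfl

/-- The pole degree of `X(Q)`. -/
noncomputable def poleDeg (Q : (W⁄(FF W L)).Point) : ℤ := degD (poleDiv Q)

@[simp] lemma poleDeg_zero : poleDeg (0 : (W⁄(FF W L)).Point) = 0 := by
  rw [poleDeg, show poleDiv (0 : (W⁄(FF W L)).Point) = 0 from Finsupp.ext fun P => by simp,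
    map_zero]

lemma poleDeg_neg (Q : (W⁄(FF W L)).Point) : poleDeg (-Q) = poleDeg Q := by
  rw [poleDeg, poleDeg, show poleDiv (-Q) = poleDiv Q from Finsupp.ext fun P => by simp [poleAt_neg]]

lemma poleAt_nonneg (P : (W⁄L).Point) (Q : (W⁄(FF W L)).Point) : 0 ≤ poleAt P Q := by
  rcases Q with _ | ⟨x, y, h⟩
  · simp [← Affine.Point.zero_def]
  rw [poleAt_some, ← log_one]
  exact (log_le_log one_ne_zero (ne_of_gt (lt_of_lt_of_le zero_lt_one (le_max_right _ _)))).mpr (le_max_right _ _)

lemma poleDeg_nonneg (Q : (W⁄(FF W L)).Point) : 0 ≤ poleDeg Q := by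
  simpa [poleDeg, degD, Finsupp.sum] using Finset.sum_nonneg fun P _ => poleAt_nonneg P Q

/-- The base curve seen over the valuation ring of a place. -/
lemma exists_curve_over_valuationSubring (P : (W⁄L).Point) :
    ∃ V₀ : WeierstrassCurve (ptVal P).valuationSubring, V₀.IsElliptic ∧
      V₀.map (ptVal P).valuationSubring.subtype = W⁄(FF W L) := by
  let j : L →+* (ptVal P).valuationSubring :=
    (algebraMap L (FF W L)).codRestrict _ fun c => ptVal_const_le P c
  refine ⟨(W⁄L).map j, inferInstance, ?_⟩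
  rw [WeierstrassCurve.map_map, ← map_const_curve]
  rfl

/-- The exact parallelogram law. -/
theorem poleDeg_parallelogram (S T : (W⁄(FF W L)).Point) :
    poleDeg (S + T) + poleDeg (S - T) = 2 * poleDeg S + 2 * poleDeg T := by
  letI := isElliptic_FF (W := W) (L := L)
  obtain ⟨c, hc, he⟩ := addSubVec_sym2x S T
  have key : ∀ P : (W⁄L).Point,
      -ordAt P c + (poleAt P (S + T) + poleAt P (S - T)) = 2 * poleAt P S + 2 * poleAt P T := by
    intro P
    obtain ⟨V₀, hV₀, hV⟩ := exists_curve_over_valuationSubring P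
    have h := congrArg (vmax (ptVal P)) he
    rw [vmax_addSubVec _ V₀ hV, sym2x_eq_symVec, vmax_symVec] at h
    rw [vmax_smul, sym2x_eq_symVec, vmax_symVec] at h
    have ne : ∀ Q : (W⁄(FF W L)).Point, vmax (ptVal P) Q.xRep ≠ 0 := fun Q =>
      vmax_ne_zero _ Q.xRep_ne_zero
    have h2 := congrArg log h
    rw [log_pow, log_mul (ne S) (ne T), log_mul ((Valuation.ne_zero_iff _).mpr hc)
      (mul_ne_zero (ne _) (ne _)), log_mul (ne _) (ne _)] at h2
    simp only [ordAt, neg_neg, poleAt, nsmul_eq_mul, Nat.cast_ofNat] at h2 ⊢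
    linarith
  have hD : -divF c + (poleDiv (S + T) + poleDiv (S - T)) = 2 • poleDiv S + 2 • poleDiv T :=
    Finsupp.ext fun P => by simpa using key P
  have := congrArg degD hD
  rw [map_add, map_neg, degD_divF, map_add, map_add, map_nsmul, map_nsmul] at this
  simpa [poleDeg] using this

end FermatLib.EC.Weil
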